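import Fermat.Agent.S56.Selmer

/-!
# S56 dictionary (helper74), package DICT-3: the class of a first-order deformation unramified
outside `Sg` lies in `continuousH1S Sg`
-/

set_option autoImplicit false

noncomputable section

namespace Fermat.Agent.S56.Dict

open Fermat.Agent.S53 TrivSqZeroExt IsLocalRing groupCohomology
open scoped TensorProduct

section Galois

theorem qbarIsGalois : IsGalois ℚ (AlgebraicClosure ℚ) :=
  letI : Algebra.IsAlgebraic ℚ (AlgebraicClosure ℚ) := AlgebraicClosure.isAlgebraic ℚ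
  letI : IsAlgClosure ℚ (AlgebraicClosure ℚ) := ⟨inferInstance, inferInstance⟩
  inferInstance

attribute [local instance] qbarIsGalois

/-- A subgroup of `G_ℚ` containing the fixing subgroup of a finite extension is the fixing
subgroup of a finite extension. -/
theorem exists_field_fixingSubgroup_eq (H : Subgroup GQ)
    (L : IntermediateField ℚ (AlgebraicClosure ℚ)) [FiniteDimensional ℚ L]
    (hL : L.fixingSubgroup ≤ H) :
    ∃ F : IntermediateField ℚ (AlgebraicClosure ℚ), FiniteDimensional ℚ F ∧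
      F.fixingSubgroup = H := by
  have hopen : IsOpen (H : Set GQ) := Subgroup.isOpen_mono hL L.fixingSubgroup_isOpen
  have hclosed : IsClosed (H : Set GQ) := Subgroup.isClosed_of_isOpen H hopen
  have hle : IntermediateField.fixedField H ≤ L := by
    have := IntermediateField.fixedField_antitone hL
    rwa [InfiniteGalois.fixedField_fixingSubgroup L] at this
  refine ⟨IntermediateField.fixedField H, ?_, ?_⟩
  · exact FiniteDimensional.of_injective (IntermediateField.inclusion hle).toLinearMap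
      (IntermediateField.inclusion_injective hle)
  · exact InfiniteGalois.fixingSubgroup_fixedField ⟨H, hclosed⟩

end Galois

section Proj

variable {k : Type} [Field k] (V : Type) [AddCommGroup V] [Module k V]

/-- the constant part `k[ε] ⊗ V → V` -/
def proj₁ : (DualNumber k ⊗[k] V) →ₗ[k] V :=
  (TensorProduct.lid k V).toLinearMap ∘ₗ
    LinearMap.rTensor V ((TrivSqZeroExt.fstHom k k k).toLinearMap)

/-- the `ε`-part `k[ε] ⊗ V → V` -/
def proj₂ : (DualNumber k ⊗[k] V) →ₗ[k] V :=
  (TensorProduct.lid k V).toLinearMap ∘ₗ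
    LinearMap.rTensor V (TrivSqZeroExt.sndHom k k)

@[simp] lemma proj₁_tmul (d : DualNumber k) (v : V) : proj₁ V (d ⊗ₜ[k] v) = d.fst • v := by
  simp [proj₁]

@[simp] lemma proj₂_tmul (d : DualNumber k) (v : V) : proj₂ V (d ⊗ₜ[k] v) = d.snd • v := by
  simp [proj₂]

end Proj

section Main

variable {𝒪 : Type} [CommRing 𝒪] [IsLocalRing 𝒪]
variable {ρbar : ResidualGaloisRep (ResidueField 𝒪)} {𝒟 : Cond 𝒪}

/-- the square of the maximal ideal of the dual numbers is zero -/
lemma maximalIdeal_dualNumber_sq (k : Type) [Field k] :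
    maximalIdeal (DualNumber k) ^ 2 = ⊥ := by
  rw [eq_bot_iff, pow_two, Ideal.mul_le]
  intro a ha b hb
  rw [mem_maximalIdeal, mem_nonunits_iff, TrivSqZeroExt.isUnit_iff_isUnit_fst, isUnit_iff_ne_zero,
    not_not] at ha hb
  rw [Ideal.mem_bot]
  ext
  · simp [ha]
  · simp [ha, hb]

/-- the kernel of a first-order deformation contains the fixing subgroup of a finite extension -/
lemma exists_finite_le_ker (x : TSub 𝒪 ρbar 𝒟) :
    ∃ L : IntermediateField ℚ (AlgebraicClosure ℚ), FiniteDimensional ℚ L ∧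
      L.fixingSubgroup ≤ (x.1.ρ).ker := by
  obtain ⟨L, hL, h⟩ := x.1.isAdicContinuous 2
  refine ⟨L, hL, fun σ hσ => ?_⟩
  rw [MonoidHom.mem_ker]
  refine LinearMap.ext fun v => ?_
  have h1 := h σ (fun y hy => (IntermediateField.mem_fixingSubgroup_iff L σ).mp hσ y hy) v
  rw [maximalIdeal_dualNumber_sq, Submodule.bot_smul, Submodule.mem_bot, sub_eq_zero] at h1
  exact h1

/-- a cocycle of `x` vanishes on the kernel of `x` -/
lemma cocycle_eq_zero_of_mem_ker (x : TSub 𝒪 ρbar 𝒟)
    (c : GQ → Module.End (ResidueField 𝒪) ρbar.V) (hc : IsCocycleOf x c) (s : GQ)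
    (hs : s ∈ (x.1.ρ).ker) : c s = 0 := by
  obtain ⟨θ, hθ⟩ := hc
  rw [MonoidHom.mem_ker] at hs
  have key : ∀ v : ρbar.V, ρbar.ρ s v = v ∧ c s (ρbar.ρ s v) = 0 := by
    intro v
    have h := hθ s v
    rw [hs, Module.End.one_apply] at h
    have h2 := θ.injective h
    have p1 := congrArg (proj₁ ρbar.V) h2
    have p2 := congrArg (proj₂ ρbar.V) h2
    simp only [map_add, proj₁_tmul, proj₂_tmul, TrivSqZeroExt.fst_one, TrivSqZeroExt.snd_one,
      one_smul, zero_smul, DualNumber.fst_eps, DualNumber.snd_eps, add_zero, zero_add] at p1 p2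
    exact ⟨p1.symm, p2.symm⟩
  refine LinearMap.ext fun v => ?_
  have h1 := (key v).2
  rw [(key v).1] at h1
  rw [h1, LinearMap.zero_apply]

/-- **Package DICT-3.** -/
theorem stmt_dict_cont : Stmt_dict_cont := by
  intro 𝒪 _ _ _ _ _ ρbar 𝒟 Sg x ξ hunr hξ
  obtain ⟨c, hc, rfl⟩ := hξ
  obtain ⟨L, hL, hLle⟩ := exists_finite_le_ker x
  obtain ⟨F, hF, hFH⟩ := exists_field_fixingSubgroup_eq (x.1.ρ).ker L hLle
  refine (mem_continuousH1S_iff Sg (ad0 ρbar) _).mpr ⟨c, ⟨F, ⟨hF, ?_⟩, ?_⟩, rfl⟩
  · intro q hq A hA σ hσ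
    rw [hFH, MonoidHom.mem_ker]
    exact hunr q hq A hA σ hσ
  · intro g s hs
    rw [hFH] at hs
    have hcs : (c : GQ → ad0 ρbar) s = 0 := by
      have := cocycle_eq_zero_of_mem_ker x _ hc s hs
      exact Subtype.ext this
    have hcoc := (mem_cocycles₁_iff (c : GQ → ad0 ρbar)).mp c.2 g s
    rw [hcoc, hcs, map_zero, zero_add]

end Main

end Fermat.Agent.S56.Dict

end
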