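import Fermat.Agent.S56.Selmer

/-!
# S56 dictionary (helper74), package DICT-4: counting

If every first-order deformation has a class, equal classes give equivalent deformations and all
classes lie in a subspace `W` of `H¹(G_ℚ, ad⁰ ρbar)` of dimension `≤ r`, then the tangent bound
`TangentLE 𝒪 ρbar 𝒟 r` holds.
-/

set_option autoImplicit false

noncomputable section

namespace Fermat.Agent.S56.Dict

open Fermat.Agent.S53 IsLocalRing groupCohomology

theorem tangentLE_of_classes {𝒪 : Type} [CommRing 𝒪] [IsLocalRing 𝒪] [Finite (ResidueField 𝒪)]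
    (ρbar : ResidualGaloisRep (ResidueField 𝒪)) (𝒟 : Cond 𝒪) (r : ℕ)
    (hex : ∀ x : TSub 𝒪 ρbar 𝒟, ∃ ξ : H1 (ad0 ρbar), IsClassOf x ξ)
    (hinj : ∀ (x y : TSub 𝒪 ρbar 𝒟) (ξ : H1 (ad0 ρbar)),
      IsClassOf x ξ → IsClassOf y ξ → x.1.IsEquiv y.1)
    (W : Submodule (ResidueField 𝒪) (H1 (ad0 ρbar))) (hWfin : Module.Finite (ResidueField 𝒪) W)
    (hW : ∀ (x : TSub 𝒪 ρbar 𝒟) (ξ : H1 (ad0 ρbar)), IsClassOf x ξ → ξ ∈ W)
    (hr : Module.finrank (ResidueField 𝒪) W ≤ r) :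
    TangentLE 𝒪 ρbar 𝒟 r := by
  classical
  choose cls hcls using hex
  have hWfinite : Finite W := Module.finite_of_finite (ResidueField 𝒪)
  -- the map to `W`
  let F : Quotient (TSetoid 𝒪 ρbar 𝒟) → W :=
    fun q => ⟨cls q.out, hW q.out _ (hcls q.out)⟩
  have hF : Function.Injective F := by
    intro q q' h
    have h1 : cls q.out = cls q'.out := congrArg Subtype.val h
    have h2 : q.out.1.IsEquiv q'.out.1 :=
      hinj q.out q'.out (cls q.out) (hcls q.out) (h1 ▸ hcls q'.out)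
    have h3 : (Quotient.mk (TSetoid 𝒪 ρbar 𝒟) q.out) = Quotient.mk (TSetoid 𝒪 ρbar 𝒟) q'.out :=
      Quotient.sound h2
    rwa [Quotient.out_eq, Quotient.out_eq] at h3
  have hfin : Finite (Quotient (TSetoid 𝒪 ρbar 𝒟)) := Finite.of_injective F hF
  refine ⟨hfin, ?_⟩
  have hcard : Nat.card (Quotient (TSetoid 𝒪 ρbar 𝒟)) ≤ Nat.card W :=
    Nat.card_le_card_of_injective F hF
  have hWcard : Nat.card W = Nat.card (ResidueField 𝒪) ^ Module.finrank (ResidueField 𝒪) W :=
    Module.natCard_eq_pow_finrank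
  have hk : 0 < Nat.card (ResidueField 𝒪) := Nat.card_pos
  calc Nat.card (Quotient (TSetoid 𝒪 ρbar 𝒟)) ≤ Nat.card W := hcard
    _ = Nat.card (ResidueField 𝒪) ^ Module.finrank (ResidueField 𝒪) W := hWcard
    _ ≤ Nat.card (ResidueField 𝒪) ^ r := Nat.pow_le_pow_right hk hr

end Fermat.Agent.S56.Dict

end
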