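import Fermat.Agent.S56.Dict.H74_Lift

/-!
# S56 dictionary (helper74), package DICT-1: every first-order deformation has a class
-/

set_option autoImplicit false

noncomputable section

namespace Fermat.Agent.S56.Dict

open Fermat.Agent.S53 TrivSqZeroExt IsLocalRing groupCohomology
open scoped TensorProduct

section Cyclo

/-- every element of `G_ℚ` acts on the `p`-th roots of unity by a power map -/
lemma exists_pow_rootsOfUnity (p : ℕ) [Fact p.Prime] (σ : GQ) :
    ∃ a : ℕ, ∀ μ : AlgebraicClosure ℚ, μ ^ p ^ 1 = 1 → σ μ = μ ^ a := by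
  haveI : NeZero p := ⟨(Fact.out : p.Prime).ne_zero⟩
  refine ⟨(modularCyclotomicCharacter.toFun p (σ : AlgebraicClosure ℚ ≃+* AlgebraicClosure ℚ)).val,
    fun μ hμ => ?_⟩
  rw [pow_one] at hμ
  have hμ0 : μ ≠ 0 := by
    rintro rfl
    rw [zero_pow (Fact.out : p.Prime).ne_zero] at hμ
    exact zero_ne_one hμ
  have ht : Units.mk0 μ hμ0 ∈ rootsOfUnity p (AlgebraicClosure ℚ) := by
    rw [mem_rootsOfUnity]
    ext
    simpa using hμ
  have := modularCyclotomicCharacter.toFun_spec' (σ : AlgebraicClosure ℚ ≃+* AlgebraicClosure ℚ) ht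
  simpa using this

end Cyclo

section Det

variable {k : Type} [Field k]

/-- If the determinant of a matrix over the dual numbers is a natural number, the `ε`-part of
the matrix times the inverse of the constant part has trace zero. -/
lemma trace_eq_zero_of_det (R : M2 (DualNumber k)) (Rinv : M2 k) (a : ℕ)
    (hdet : R.det = (a : DualNumber k)) (hinv : mfst R * Rinv = 1) :
    (msnd R * Rinv).trace = 0 := by
  have h1 : (R.det).snd = 0 := by rw [hdet]; simp
  rw [snd_det] at h1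
  have hunit : IsUnit (mfst R).det := by
    have := congrArg Matrix.det hinv
    rw [Matrix.det_mul, Matrix.det_one] at this
    exact IsUnit.of_mul_eq_one _ this
  have hRinv : Rinv = (mfst R)⁻¹ := by
    rw [eq_comm]
    exact Matrix.inv_eq_right_inv hinv
  have hadj : (mfst R).adjugate = (mfst R).det • Rinv := by
    rw [hRinv, Matrix.inv_def, smul_smul, Ring.mul_inverse_cancel _ hunit, one_smul]
  rw [hadj, Matrix.mul_smul, Matrix.trace_smul, smul_eq_mul] at h1
  rcases mul_eq_zero.mp h1 with h | h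
  · exact absurd h hunit.ne_zero
  · exact h

end Det

section Construction

variable {𝒪 : Type} [CommRing 𝒪] [IsLocalRing 𝒪]
variable {ρbar : ResidualGaloisRep (ResidueField 𝒪)} {𝒟 : Cond 𝒪}

/-- every dual number is `a + ε b` -/
lemma dual_decomp {k : Type} [Field k] (R : M2 (DualNumber k)) :
    R = (mfst R).map (algebraMap k (DualNumber k))
      + (DualNumber.eps : DualNumber k) • (msnd R).map (algebraMap k (DualNumber k)) := by
  ext i j
  · simp [TrivSqZeroExt.algebraMap_eq_inl]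
  · simp [TrivSqZeroExt.algebraMap_eq_inl]

/-- The identification `k[ε] ⊗ V ≃ V_x` attached to a pair of bases. -/
def thetaOf (x : TSub 𝒪 ρbar 𝒟) (bbar : Module.Basis (Fin 2) (ResidueField 𝒪) ρbar.V)
    (b : Module.Basis (Fin 2) (DualNumber (ResidueField 𝒪)) x.1.V) :
    (DualNumber (ResidueField 𝒪) ⊗[ResidueField 𝒪] ρbar.V) ≃ₗ[DualNumber (ResidueField 𝒪)] x.1.V :=
  (Algebra.TensorProduct.basis (DualNumber (ResidueField 𝒪)) bbar).equiv b (Equiv.refl _)

/-- The `ε`-part of the deformation, as an endomorphism of `ρbar.V`. -/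
def sEnd (x : TSub 𝒪 ρbar 𝒟) (bbar : Module.Basis (Fin 2) (ResidueField 𝒪) ρbar.V)
    (b : Module.Basis (Fin 2) (DualNumber (ResidueField 𝒪)) x.1.V) (σ : GQ) :
    Module.End (ResidueField 𝒪) ρbar.V :=
  Matrix.toLin bbar bbar (msnd (LinearMap.toMatrix b b (x.1.ρ σ)))

/-- The cocycle of the deformation, as an endomorphism valued function. -/
def cEnd (x : TSub 𝒪 ρbar 𝒟) (bbar : Module.Basis (Fin 2) (ResidueField 𝒪) ρbar.V)
    (b : Module.Basis (Fin 2) (DualNumber (ResidueField 𝒪)) x.1.V) (σ : GQ) :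
    Module.End (ResidueField 𝒪) ρbar.V :=
  sEnd x bbar b σ ∘ₗ ρbar.ρ σ⁻¹

variable (x : TSub 𝒪 ρbar 𝒟) (bbar : Module.Basis (Fin 2) (ResidueField 𝒪) ρbar.V)
  (b : Module.Basis (Fin 2) (DualNumber (ResidueField 𝒪)) x.1.V)
  (hb : ∀ σ : GQ, mfst (LinearMap.toMatrix b b (x.1.ρ σ)) = LinearMap.toMatrix bbar bbar (ρbar.ρ σ))

include hb in
/-- (K1) as an identity of `k[ε]`-linear maps -/
lemma rho_comp_theta (σ : GQ) :
    (x.1.ρ σ) ∘ₗ (thetaOf x bbar b : _ →ₗ[DualNumber (ResidueField 𝒪)] x.1.V)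
      = (thetaOf x bbar b : _ →ₗ[DualNumber (ResidueField 𝒪)] x.1.V) ∘ₗ
        ((ρbar.ρ σ).baseChange (DualNumber (ResidueField 𝒪))
          + (DualNumber.eps : DualNumber (ResidueField 𝒪)) •
            (sEnd x bbar b σ).baseChange (DualNumber (ResidueField 𝒪))) := by
  classical
  set B := Algebra.TensorProduct.basis (DualNumber (ResidueField 𝒪)) bbar with hB
  apply (LinearMap.toMatrix B b).injective
  rw [LinearMap.toMatrix_comp B b b, LinearMap.toMatrix_comp B B b]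
  have h1 : LinearMap.toMatrix B b
      (thetaOf x bbar b : _ →ₗ[DualNumber (ResidueField 𝒪)] x.1.V) = 1 :=
    LinearMap.toMatrix_basis_equiv b B
  rw [h1, mul_one, one_mul, map_add, map_smul, LinearMap.toMatrix_baseChange,
    LinearMap.toMatrix_baseChange, sEnd, LinearMap.toMatrix_toLin, ← hb σ]
  exact dual_decomp _

include hb in
/-- (K1) -/
lemma rho_theta_apply (σ : GQ) (v : ρbar.V) :
    x.1.ρ σ (thetaOf x bbar b ((1 : DualNumber (ResidueField 𝒪)) ⊗ₜ[ResidueField 𝒪] v))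
      = thetaOf x bbar b ((1 : DualNumber (ResidueField 𝒪)) ⊗ₜ[ResidueField 𝒪] (ρbar.ρ σ v)
        + (DualNumber.eps : DualNumber (ResidueField 𝒪)) ⊗ₜ[ResidueField 𝒪] (sEnd x bbar b σ v)) := by
  have h := congrArg (fun f => f ((1 : DualNumber (ResidueField 𝒪)) ⊗ₜ[ResidueField 𝒪] v))
    (rho_comp_theta x bbar b hb σ)
  simp only [LinearMap.comp_apply, LinearEquiv.coe_coe, LinearMap.add_apply,
    LinearMap.smul_apply, LinearMap.baseChange_tmul] at h
  rw [h, TensorProduct.smul_tmul', smul_eq_mul, mul_one]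

lemma cEnd_apply_rho (σ : GQ) (v : ρbar.V) :
    cEnd x bbar b σ (ρbar.ρ σ v) = sEnd x bbar b σ v := by
  unfold cEnd
  rw [LinearMap.comp_apply]
  congr 1
  have : ρbar.ρ σ⁻¹ (ρbar.ρ σ v) = (ρbar.ρ (σ⁻¹ * σ)) v := by rw [map_mul]; rfl
  rw [this, inv_mul_cancel, map_one]; rfl

include hb in
/-- the deformation `x` is given by the cocycle `cEnd` -/
theorem isCocycleOf_cEnd : IsCocycleOf x (cEnd x bbar b) :=
  ⟨thetaOf x bbar b, fun σ v => by rw [rho_theta_apply x bbar b hb σ v, cEnd_apply_rho]⟩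

include hb in
/-- (K2) the product rule for the `ε`-part -/
lemma sEnd_mul (σ τ : GQ) :
    sEnd x bbar b (σ * τ) = ρbar.ρ σ ∘ₗ sEnd x bbar b τ + sEnd x bbar b σ ∘ₗ ρbar.ρ τ := by
  classical
  apply (LinearMap.toMatrix bbar bbar).injective
  rw [map_add, LinearMap.toMatrix_comp bbar bbar bbar, LinearMap.toMatrix_comp bbar bbar bbar]
  simp only [sEnd, LinearMap.toMatrix_toLin]
  rw [map_mul, Module.End.mul_eq_comp, LinearMap.toMatrix_comp b b b, msnd_mul, hb σ, hb τ]

include hb in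
/-- (K2) the cocycle identity -/
lemma cEnd_mul (σ τ : GQ) :
    cEnd x bbar b (σ * τ) = adRepr ρbar σ (cEnd x bbar b τ) + cEnd x bbar b σ := by
  have hinv : ρbar.ρ (σ * τ)⁻¹ = ρbar.ρ τ⁻¹ ∘ₗ ρbar.ρ σ⁻¹ := by
    rw [mul_inv_rev, map_mul]; rfl
  have hcancel : ρbar.ρ τ ∘ₗ ρbar.ρ τ⁻¹ = LinearMap.id := by
    rw [← Module.End.mul_eq_comp, ← map_mul, mul_inv_cancel, map_one]; rfl
  rw [adRepr_apply]
  unfold cEnd
  rw [sEnd_mul x bbar b hb, hinv, LinearMap.add_comp]
  congr 1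
  refine LinearMap.ext fun v => ?_
  simp only [LinearMap.comp_apply]
  have := congrArg (fun f => f (ρbar.ρ σ⁻¹ v)) hcancel
  simp only [LinearMap.comp_apply, LinearMap.id_apply] at this
  rw [this]

include hb in
/-- (K3) the cocycle has trace zero if the determinant is cyclotomic -/
lemma trace_cEnd (p : ℕ) [Fact p.Prime] (hdet : x.1.DetIsCyclotomic p) (σ : GQ) :
    LinearMap.trace (ResidueField 𝒪) ρbar.V (cEnd x bbar b σ) = 0 := by
  classical
  obtain ⟨a, ha⟩ := exists_pow_rootsOfUnity p σ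
  have h1 := hdet.2 1 σ a ha
  -- `p = 0` in `k[ε]`
  have hp0 : ((p ^ 1 : ℕ) : DualNumber (ResidueField 𝒪)) = 0 := by
    have hm := hdet.1
    rw [mem_maximalIdeal, mem_nonunits_iff, TrivSqZeroExt.isUnit_iff_isUnit_fst] at hm
    have hfst : (p : DualNumber (ResidueField 𝒪)).fst = 0 := by
      by_contra hne
      exact hm (IsUnit.mk0 _ hne)
    rw [pow_one]
    ext
    · exact hfst
    · simp
  rw [hp0, Ideal.span_singleton_eq_bot.mpr rfl, Ideal.mem_bot, sub_eq_zero] at h1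
  rw [LinearMap.trace_eq_matrix_trace (ResidueField 𝒪) bbar]
  unfold cEnd sEnd
  rw [LinearMap.toMatrix_comp bbar bbar bbar, LinearMap.toMatrix_toLin]
  apply trace_eq_zero_of_det _ _ a
  · rw [LinearMap.det_toMatrix]; exact h1
  · rw [hb σ, ← LinearMap.toMatrix_comp bbar bbar bbar, ← Module.End.mul_eq_comp, ← map_mul,
      mul_inv_cancel, map_one]
    exact LinearMap.toMatrix_one bbar

end Construction

section Main

variable {𝒪 : Type} [CommRing 𝒪] [IsLocalRing 𝒪]
variable {ρbar : ResidualGaloisRep (ResidueField 𝒪)} {𝒟 : Cond 𝒪}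

/-- The cocycle of a first-order deformation with cyclotomic determinant, with respect to a pair
of compatible bases. -/
def cocycleOf (x : TSub 𝒪 ρbar 𝒟) (bbar : Module.Basis (Fin 2) (ResidueField 𝒪) ρbar.V)
    (b : Module.Basis (Fin 2) (DualNumber (ResidueField 𝒪)) x.1.V)
    (hb : ∀ σ : GQ, mfst (LinearMap.toMatrix b b (x.1.ρ σ)) = LinearMap.toMatrix bbar bbar (ρbar.ρ σ))
    (p : ℕ) [Fact p.Prime] (hdet : x.1.DetIsCyclotomic p) : cocycles₁ (ad0 ρbar) :=
  ⟨fun σ => (⟨cEnd x bbar b σ, LinearMap.mem_ker.mpr (trace_cEnd x bbar b hb p hdet σ)⟩ :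
      ad0Sub ρbar),
    (mem_cocycles₁_iff _).mpr fun g h => Subtype.ext (cEnd_mul x bbar b hb g h)⟩

lemma ad0Val_cocycleOf (x : TSub 𝒪 ρbar 𝒟) (bbar : Module.Basis (Fin 2) (ResidueField 𝒪) ρbar.V)
    (b : Module.Basis (Fin 2) (DualNumber (ResidueField 𝒪)) x.1.V)
    (hb : ∀ σ : GQ, mfst (LinearMap.toMatrix b b (x.1.ρ σ)) = LinearMap.toMatrix bbar bbar (ρbar.ρ σ))
    (p : ℕ) [Fact p.Prime] (hdet : x.1.DetIsCyclotomic p) (σ : GQ) :
    ad0Val ρbar ((cocycleOf x bbar b hb p hdet : GQ → ad0 ρbar) σ) = cEnd x bbar b σ := rfl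

/-- **DICT-1**, general form: a first-order deformation with cyclotomic determinant has a class. -/
theorem exists_isClassOf (x : TSub 𝒪 ρbar 𝒟) (p : ℕ) [Fact p.Prime]
    (hdet : x.1.DetIsCyclotomic p) : ∃ ξ : H1 (ad0 ρbar), IsClassOf x ξ := by
  obtain ⟨b, hb⟩ := exists_lift_basis x (Module.finBasisOfFinrankEq _ ρbar.V ρbar.finrank_eq)
  exact ⟨_, cocycleOf x _ b hb p hdet, isCocycleOf_cEnd x _ b hb, rfl⟩

/-- **Package DICT-1.** -/
theorem stmt_dict_exists : Stmt_dict_exists := by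
  intro 𝒪 _ _ _ _ _ p _ ρbar 𝒟 _ _ _ h𝒟 x
  letI := dualNumberAlgebra 𝒪
  exact exists_isClassOf x p (h𝒟 x.1 x.2.1)

end Main

end Fermat.Agent.S56.Dict

end
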