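import Fermat.Agent.S56.Selmer

set_option autoImplicit false

/-!
# Cluster T / S56, package DICT-2 (helper85): `Stmt_dict_inj`

Two first-order deformations `x`, `y` of `ρbar` with the same class in `H¹(G_ℚ, ad⁰ ρbar)` are
equivalent: if `c_x - c_y = d m` then `u = 1 + ε m` intertwines the two matrix forms
`(1 + ε c_x σ) ρbar σ` and `(1 + ε c_y σ) ρbar σ`.
-/

noncomputable section

namespace Fermat.Agent.S56.Dict.H85

open IsLocalRing CategoryTheory groupCohomology Fermat.Agent.S53 Fermat.Agent.S56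
open scoped TensorProduct

section Unipotent

variable {k : Type} [Field k] {V : Type} [AddCommGroup V] [Module k V]

/-- `ε • (1 ⊗ v) = ε ⊗ v`. -/
theorem eps_smul_one_tmul (v : V) :
    (DualNumber.eps : DualNumber k) • ((1 : DualNumber k) ⊗ₜ[k] v) = DualNumber.eps ⊗ₜ[k] v := by
  rw [TensorProduct.smul_tmul', smul_eq_mul, mul_one]

/-- `ε • (ε ⊗ v) = 0`. -/
theorem eps_smul_eps_tmul (v : V) :
    (DualNumber.eps : DualNumber k) • ((DualNumber.eps : DualNumber k) ⊗ₜ[k] v) = 0 := by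
  rw [TensorProduct.smul_tmul', smul_eq_mul, DualNumber.eps_mul_eps, TensorProduct.zero_tmul]

/-- The `k[ε]`-linear endomorphism `ε ⊗ m` of `k[ε] ⊗ V`. -/
def epsEnd (m : Module.End k V) : Module.End (DualNumber k) (DualNumber k ⊗[k] V) :=
  (DualNumber.eps : DualNumber k) • m.baseChange (DualNumber k)

theorem epsEnd_one_tmul (m : Module.End k V) (v : V) :
    epsEnd m ((1 : DualNumber k) ⊗ₜ[k] v) = (DualNumber.eps : DualNumber k) ⊗ₜ[k] (m v) := by
  rw [epsEnd, LinearMap.smul_apply, LinearMap.baseChange_tmul, eps_smul_one_tmul]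

theorem epsEnd_eps_tmul (m : Module.End k V) (v : V) :
    epsEnd m ((DualNumber.eps : DualNumber k) ⊗ₜ[k] v) = 0 := by
  rw [epsEnd, LinearMap.smul_apply, LinearMap.baseChange_tmul, eps_smul_eps_tmul]

theorem epsEnd_apply (m : Module.End k V) (w : DualNumber k ⊗[k] V) :
    epsEnd m w = (DualNumber.eps : DualNumber k) • m.baseChange (DualNumber k) w := rfl

theorem epsEnd_epsEnd (m m' : Module.End k V) (w : DualNumber k ⊗[k] V) :
    epsEnd m (epsEnd m' w) = 0 := by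
  rw [epsEnd_apply m', map_smul, epsEnd_apply m, smul_smul, DualNumber.eps_mul_eps, zero_smul]

/-- The automorphism `1 + ε m` of `k[ε] ⊗ V`. -/
def unip (m : Module.End k V) :
    (DualNumber k ⊗[k] V) ≃ₗ[DualNumber k] (DualNumber k ⊗[k] V) where
  toFun w := w + epsEnd m w
  invFun w := w - epsEnd m w
  map_add' a b := by
    rw [map_add]
    abel
  map_smul' r a := by
    rw [map_smul, RingHom.id_apply, smul_add]
  left_inv w := by
    change (w + epsEnd m w) - epsEnd m (w + epsEnd m w) = w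
    rw [map_add, epsEnd_epsEnd, add_zero, add_sub_cancel_right]
  right_inv w := by
    change (w - epsEnd m w) + epsEnd m (w - epsEnd m w) = w
    rw [map_sub, epsEnd_epsEnd, sub_zero, sub_add_cancel]

theorem unip_apply (m : Module.End k V) (w : DualNumber k ⊗[k] V) :
    unip m w = w + epsEnd m w := rfl

theorem unip_one_tmul (m : Module.End k V) (v : V) :
    unip m ((1 : DualNumber k) ⊗ₜ[k] v)
      = (1 : DualNumber k) ⊗ₜ[k] v + (DualNumber.eps : DualNumber k) ⊗ₜ[k] (m v) := by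
  rw [unip_apply, epsEnd_one_tmul]

theorem unip_eps_tmul (m : Module.End k V) (v : V) :
    unip m ((DualNumber.eps : DualNumber k) ⊗ₜ[k] v) = (DualNumber.eps : DualNumber k) ⊗ₜ[k] v := by
  rw [unip_apply, epsEnd_eps_tmul, add_zero]

end Unipotent


section Main

variable {k : Type} [Field k] (ρbar : ResidualGaloisRep k)

/-- The value of the coboundary of `m ∈ ad⁰ ρbar`, as an endomorphism. -/
theorem ad0Val_d₀₁ (m : ad0 ρbar) (σ : GQ) :
    ad0Val ρbar ((d₀₁ (ad0 ρbar)).hom m σ)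
      = ρbar.ρ σ ∘ₗ ad0Val ρbar m ∘ₗ ρbar.ρ σ⁻¹ - ad0Val ρbar m := by
  rw [d₀₁_hom_apply, map_sub]
  rfl

theorem rho_inv_rho (σ : GQ) (v : ρbar.V) : ρbar.ρ σ⁻¹ (ρbar.ρ σ v) = v := by
  have h : ρbar.ρ σ⁻¹ * ρbar.ρ σ = 1 := by
    rw [← map_mul, inv_mul_cancel, map_one]
  have h2 := congrArg (fun f : Module.End k ρbar.V => f v) h
  exact h2

end Main

section Core

variable {k : Type} [Field k] (ρbar : ResidualGaloisRep k)

/-- The core computation: if `ρx`, `ρy` have matrix forms `(1 + ε cx) ρbar`, `(1 + ε cy) ρbar`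
and `cx - cy` is the coboundary of `m`, then `1 + ε m` intertwines them. -/
theorem isEquiv_of_rel (ρx ρy : GaloisRepAdic (DualNumber k))
    (cx cy : GQ → Module.End k ρbar.V) (m : Module.End k ρbar.V)
    (θx : (DualNumber k ⊗[k] ρbar.V) ≃ₗ[DualNumber k] ρx.V)
    (hθx : ∀ (σ : GQ) (v : ρbar.V), ρx.ρ σ (θx ((1 : DualNumber k) ⊗ₜ[k] v)) =
      θx ((1 : DualNumber k) ⊗ₜ[k] (ρbar.ρ σ v) +
        (DualNumber.eps : DualNumber k) ⊗ₜ[k] (cx σ (ρbar.ρ σ v))))
    (θy : (DualNumber k ⊗[k] ρbar.V) ≃ₗ[DualNumber k] ρy.V)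
    (hθy : ∀ (σ : GQ) (v : ρbar.V), ρy.ρ σ (θy ((1 : DualNumber k) ⊗ₜ[k] v)) =
      θy ((1 : DualNumber k) ⊗ₜ[k] (ρbar.ρ σ v) +
        (DualNumber.eps : DualNumber k) ⊗ₜ[k] (cy σ (ρbar.ρ σ v))))
    (key : ∀ (σ : GQ) (v : ρbar.V),
      cx σ (ρbar.ρ σ v) + m (ρbar.ρ σ v) = cy σ (ρbar.ρ σ v) + ρbar.ρ σ (m v)) :
    ρx.IsEquiv ρy := by
  refine ⟨⟨θx.symm ≪≫ₗ unip m ≪≫ₗ θy, fun σ w => ?_⟩⟩
  obtain ⟨w', rfl⟩ := θx.surjective w
  induction w' using TensorProduct.induction_on with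
  | zero => simp only [map_zero]
  | add a b ha hb => simp only [map_add, ha, hb]
  | tmul a v =>
    have ha : a ⊗ₜ[k] v = a • ((1 : DualNumber k) ⊗ₜ[k] v) := by
      rw [TensorProduct.smul_tmul', smul_eq_mul, mul_one]
    rw [ha]
    simp only [map_smul]
    congr 1
    have hε : ∀ u : ρbar.V, ρy.ρ σ (θy ((DualNumber.eps : DualNumber k) ⊗ₜ[k] u))
        = θy ((DualNumber.eps : DualNumber k) ⊗ₜ[k] (ρbar.ρ σ u)) := by
      intro u
      rw [← eps_smul_one_tmul, map_smul, map_smul, hθy σ u, ← map_smul, smul_add,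
        eps_smul_one_tmul, eps_smul_eps_tmul, add_zero]
    have hL : unip m ((1 : DualNumber k) ⊗ₜ[k] (ρbar.ρ σ v) +
          (DualNumber.eps : DualNumber k) ⊗ₜ[k] (cx σ (ρbar.ρ σ v)))
        = (1 : DualNumber k) ⊗ₜ[k] (ρbar.ρ σ v) + (DualNumber.eps : DualNumber k) ⊗ₜ[k]
            (cx σ (ρbar.ρ σ v) + m (ρbar.ρ σ v)) := by
      rw [map_add, unip_one_tmul, unip_eps_tmul, TensorProduct.tmul_add]
      abel
    have hR : ρy.ρ σ (θy (unip m ((1 : DualNumber k) ⊗ₜ[k] v)))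
        = θy ((1 : DualNumber k) ⊗ₜ[k] (ρbar.ρ σ v) + (DualNumber.eps : DualNumber k) ⊗ₜ[k]
            (cy σ (ρbar.ρ σ v) + ρbar.ρ σ (m v))) := by
      rw [unip_one_tmul, map_add, map_add, hθy σ v, hε, ← map_add, TensorProduct.tmul_add,
        add_assoc]
    simp only [LinearEquiv.trans_apply, LinearEquiv.symm_apply_apply]
    rw [hθx σ v, LinearEquiv.symm_apply_apply, hL, hR, key σ v]

end Core

/-- **Package DICT-2.** Two first-order deformations with the same class are equivalent. -/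
theorem stmt_dict_inj : Stmt_dict_inj := by
  intro 𝒪 _ _ _ _ _ ρbar 𝒟 x y ξ hx hy
  obtain ⟨cx, ⟨θx, hθx⟩, hcx⟩ := hx
  obtain ⟨cy, ⟨θy, hθy⟩, hcy⟩ := hy
  have hH : H1π (ad0 ρbar) cx = H1π (ad0 ρbar) cy := hcx.trans hcy.symm
  rw [H1π_eq_iff] at hH
  obtain ⟨m, hm⟩ := hH
  -- the coboundary relation, evaluated
  have key : ∀ (σ : GQ) (v : ρbar.V),
      ad0Val ρbar (cx σ) (ρbar.ρ σ v) + ad0Val ρbar m (ρbar.ρ σ v)
        = ad0Val ρbar (cy σ) (ρbar.ρ σ v) + ρbar.ρ σ (ad0Val ρbar m v) := by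
    intro σ v
    have h1 := ad0Val_d₀₁ ρbar m σ
    rw [hm] at h1
    have h2 : ad0Val ρbar (cx σ) - ad0Val ρbar (cy σ)
        = ρbar.ρ σ ∘ₗ ad0Val ρbar m ∘ₗ ρbar.ρ σ⁻¹ - ad0Val ρbar m := by
      rw [← h1, ← map_sub]
      rfl
    have h3 := congrArg (fun f : Module.End (ResidueField 𝒪) ρbar.V => f (ρbar.ρ σ v)) h2
    simp only [LinearMap.sub_apply, LinearMap.comp_apply, rho_inv_rho] at h3
    have h4 := sub_eq_sub_iff_add_eq_add.mp h3
    rw [h4, add_comm]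
  exact isEquiv_of_rel ρbar x.1 y.1 (fun σ => ad0Val ρbar (cx σ)) (fun σ => ad0Val ρbar (cy σ))
    (ad0Val ρbar m) θx hθx θy hθy key

end Fermat.Agent.S56.Dict.H85
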