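import Fermat.Agent.S56.Dict.H74_Mat
import Fermat.Agent.S53.Tangent

/-!
# S56 dictionary (helper74): a first-order deformation has a basis lifting a basis of `ρbar`
-/

set_option autoImplicit false

noncomputable section

namespace Fermat.Agent.S56.Dict

open Fermat.Agent.S53 TrivSqZeroExt IsLocalRing

variable {𝒪 : Type} [CommRing 𝒪] [IsLocalRing 𝒪]

/-- the residue of a dual number is the image of its constant part -/
lemma residue_dualNumber (d : DualNumber (ResidueField 𝒪)) :
    letI := resDualNumberAlgebra 𝒪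
    residue (DualNumber (ResidueField 𝒪)) d
      = algebraMap (ResidueField 𝒪) (ResidueField (DualNumber (ResidueField 𝒪))) d.fst := by
  letI := resDualNumberAlgebra 𝒪
  have h1 : algebraMap (ResidueField 𝒪) (ResidueField (DualNumber (ResidueField 𝒪))) d.fst
      = residue (DualNumber (ResidueField 𝒪)) (TrivSqZeroExt.inl d.fst) := rfl
  rw [h1, ← sub_eq_zero, ← map_sub, residue_eq_zero_iff]
  have h2 : d - TrivSqZeroExt.inl d.fst = TrivSqZeroExt.inr d.snd := by
    ext <;> simp
  rw [h2, mem_maximalIdeal, mem_nonunits_iff, TrivSqZeroExt.isUnit_iff_isUnit_fst]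
  simp

variable {ρbar : ResidualGaloisRep (ResidueField 𝒪)} {𝒟 : Cond 𝒪}

/-- A first-order deformation has a basis in which its matrices lift the matrices of `ρbar`
in a given basis. -/
theorem exists_lift_basis (x : TSub 𝒪 ρbar 𝒟) (bbar : Module.Basis (Fin 2) (ResidueField 𝒪) ρbar.V) :
    ∃ b : Module.Basis (Fin 2) (DualNumber (ResidueField 𝒪)) x.1.V,
      ∀ σ : GQ, mfst (LinearMap.toMatrix b b (x.1.ρ σ)) = LinearMap.toMatrix bbar bbar (ρbar.ρ σ) := by
  letI := dualNumberAlgebra 𝒪
  letI := resDualNumberAlgebra 𝒪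
  have hrbar : IsMatOfRes ρbar (matHom bbar ρbar.ρ) := ⟨bbar, fun _ => rfl⟩
  obtain ⟨r₀, hr₀⟩ := exists_isMatOf x.1
  obtain ⟨gbar, hgbar⟩ := (IsMatOfRes.isEquiv_iff hr₀.residual
    (IsMatOfRes.baseChange (ResidueField (DualNumber (ResidueField 𝒪))) hrbar)).mp x.2.2
  obtain ⟨g₀, hg₀⟩ := exists_map_residue_eq (gbar : M2 (ResidueField (DualNumber (ResidueField 𝒪))))
  have hu : IsUnit g₀ := isUnit_of_isUnit_map_residue g₀ (hg₀ ▸ gbar.isUnit)
  obtain ⟨g, rfl⟩ := hu
  obtain ⟨b, hb⟩ := hr₀.conj g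
  refine ⟨b, fun σ => ?_⟩
  have hinv : (gbar : M2 (ResidueField (DualNumber (ResidueField 𝒪)))) *
      (((g⁻¹ : (M2 (DualNumber (ResidueField 𝒪)))ˣ) : M2 (DualNumber (ResidueField 𝒪))).map
        (residue (DualNumber (ResidueField 𝒪)))) = 1 := by
    rw [← hg₀, ← RingHom.mapMatrix_apply, ← RingHom.mapMatrix_apply, ← map_mul, Units.mul_inv,
      map_one]
  have key : ((g : M2 (DualNumber (ResidueField 𝒪))) * r₀ σ *
      ((g⁻¹ : (M2 (DualNumber (ResidueField 𝒪)))ˣ) : M2 (DualNumber (ResidueField 𝒪)))).map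
        (residue (DualNumber (ResidueField 𝒪)))
      = (matHom bbar ρbar.ρ σ).map
        (algebraMap (ResidueField 𝒪) (ResidueField (DualNumber (ResidueField 𝒪)))) := by
    rw [← RingHom.mapMatrix_apply, map_mul, map_mul, RingHom.mapMatrix_apply,
      RingHom.mapMatrix_apply, RingHom.mapMatrix_apply, hg₀, hgbar σ, mul_assoc, hinv, mul_one]
  rw [hb σ]
  ext i j
  have hij := congrFun (congrFun key i) j
  simp only [Matrix.map_apply] at hij
  rw [residue_dualNumber] at hij
  exact (algebraMap (ResidueField 𝒪) (ResidueField (DualNumber (ResidueField 𝒪)))).injective hij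

end Fermat.Agent.S56.Dict

end
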