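import Fermat.Agent.S56.Selmer
import Fermat.Agent.S53.Dict

/-!
# S56 dictionary (helper74): matrices over the dual numbers

For `r : M2 k[ε]` write `r = a + ε b` with `a = r.map fst`, `b = r.map snd`.
-/

set_option autoImplicit false

noncomputable section

namespace Fermat.Agent.S56.Dict

open Fermat.Agent.S53 TrivSqZeroExt

variable {k : Type} [Field k]

/-- the constant part of a matrix over the dual numbers -/
def mfst (r : M2 (DualNumber k)) : M2 k := r.map TrivSqZeroExt.fst

/-- the `ε`-part of a matrix over the dual numbers -/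
def msnd (r : M2 (DualNumber k)) : M2 k := r.map TrivSqZeroExt.snd

@[simp] lemma mfst_apply (r : M2 (DualNumber k)) (i j : Fin 2) : mfst r i j = (r i j).fst := rfl
@[simp] lemma msnd_apply (r : M2 (DualNumber k)) (i j : Fin 2) : msnd r i j = (r i j).snd := rfl

lemma mfst_one : mfst (1 : M2 (DualNumber k)) = 1 := by
  ext i j
  fin_cases i <;> fin_cases j <;> simp [mfst]

lemma msnd_one : msnd (1 : M2 (DualNumber k)) = 0 := by
  ext i j
  fin_cases i <;> fin_cases j <;> simp [msnd]

lemma mfst_mul (r s : M2 (DualNumber k)) : mfst (r * s) = mfst r * mfst s := by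
  ext i j
  simp [Matrix.mul_apply, Fin.sum_univ_two]

lemma msnd_mul (r s : M2 (DualNumber k)) :
    msnd (r * s) = mfst r * msnd s + msnd r * mfst s := by
  ext i j
  simp [Matrix.mul_apply, Fin.sum_univ_two, Matrix.add_apply]
  ring

lemma ext_fst_snd {r s : M2 (DualNumber k)} (h1 : mfst r = mfst s) (h2 : msnd r = msnd s) :
    r = s := by
  ext i j
  · exact congrFun (congrFun h1 i) j
  · exact congrFun (congrFun h2 i) j

lemma fst_det (r : M2 (DualNumber k)) : (r.det).fst = (mfst r).det := by
  simp [Matrix.det_fin_two]

/-- Jacobi's formula for `2 × 2` matrices over the dual numbers. -/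
lemma snd_det (r : M2 (DualNumber k)) :
    (r.det).snd = (msnd r * (mfst r).adjugate).trace := by
  simp [Matrix.det_fin_two, Matrix.trace_fin_two, Matrix.mul_apply, Fin.sum_univ_two,
    Matrix.adjugate_fin_two]
  ring

end Fermat.Agent.S56.Dict

end
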