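import Fermat.Agent.S56.LeavesNT

set_option autoImplicit false

/-!
# Cluster T / S56, package DICT-5 (helper85): restriction on cocycles

For a group homomorphism `r : H →* G_ℚ` (a localisation map) and `M : Rep k G_ℚ`:

* `resAlong r M : H¹(G_ℚ, M) → H¹(H, M)` is the restriction map; `resAt M q`, `resInf M` and the
  prelude's `locRes` are instances (`resAt_eq`, `resInf_eq`, `locRes_eq`);
* `resCocycle r c` is the cocycle `h ↦ c (r h)` and `resAlong r M [c] = [resCocycle r c]`
  (`resAlong_H1π`);
* restriction preserves level-constancy, so it maps `continuousH1S Sg M` (and the larger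
  `continuousH1 id M`) into the continuous local classes `continuousH1 r (Rep.res r M)`
  (`resAlong_mem_continuousH1`, `resAt_mem_locH1`, `resInf_mem_continuousH1`);
* `resAlong r M ξ = 0` iff the restriction of a (any) cocycle of `ξ` is a coboundary
  (`resAlong_H1π_eq_zero_iff`).
-/

noncomputable section

namespace Fermat.Agent.S56.Dict.H85

open CategoryTheory groupCohomology ExtCitation Fermat.Agent.S56

variable {k : Type} [Field k] {H : Type} [Group H] (r : H →* GQ) (M : Rep k GQ)

/-- Restriction `H¹(G_ℚ, M) → H¹(H, M)` along `r : H →* G_ℚ`. -/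
def resAlong : H1 M →ₗ[k] H1 (Rep.res r M) :=
  (groupCohomology.map r (𝟙 (Rep.res r M)) 1).hom

theorem resAt_eq (q : Nat.Primes) : resAt M q = resAlong (primeLocalToGlobal q) M := rfl

theorem resInf_eq : resInf M = resAlong archimedeanLoc M := rfl

/-- The restriction of a cocycle. -/
def resCocycle (c : cocycles₁ M) : cocycles₁ (Rep.res r M) :=
  (mapCocycles₁ r (𝟙 (Rep.res r M))).hom c

@[simp]
theorem resCocycle_apply (c : cocycles₁ M) (h : H) :
    (resCocycle r M c : H → Rep.res r M) h = (c : GQ → M) (r h) := rfl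

theorem resAlong_H1π (c : cocycles₁ M) :
    resAlong r M ((H1π M).hom c) = (H1π (Rep.res r M)).hom (resCocycle r M c) := by
  have h := H1π_comp_map (A := M) (B := Rep.res r M) r (𝟙 (Rep.res r M))
  have h2 := congrArg (fun f => f.hom c) h
  exact h2

theorem resAlong_H1π_eq_zero_iff (c : cocycles₁ M) :
    resAlong r M ((H1π M).hom c) = 0
      ↔ (fun h : H => (c : GQ → M) (r h)) ∈ coboundaries₁ (Rep.res r M) := by
  rw [resAlong_H1π]
  exact H1π_eq_zero_iff (resCocycle r M c)

/-- `resAlong r M [c] = 0` iff `c ∘ r` is the coboundary of some `m : M`. -/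
theorem resAlong_H1π_eq_zero_iff_exists (c : cocycles₁ M) :
    resAlong r M ((H1π M).hom c) = 0
      ↔ ∃ m : M, ∀ h : H, (c : GQ → M) (r h) = M.ρ (r h) m - m := by
  rw [resAlong_H1π_eq_zero_iff]
  constructor
  · rintro ⟨m, hm⟩
    refine ⟨m, fun h => ?_⟩
    have := congrFun hm h
    rw [d₀₁_hom_apply] at this
    exact this.symm
  · rintro ⟨m, hm⟩
    refine ⟨m, funext fun h => ?_⟩
    rw [d₀₁_hom_apply]
    exact (hm h).symm

/-- The prelude's `locRes` is `resAlong`. -/
theorem locRes_hom_eq {ι : Type} {Γv : ι → Type} [∀ v, Group (Γv v)]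
    (loc : ∀ v, Γv v →* GQ) (v : ι) :
    (locRes loc M v).hom = resAlong (loc v) M := rfl

variable {M}

/-- Restriction preserves level-constancy. -/
theorem isLevelConstant₁_resCocycle {c : cocycles₁ M}
    (hc : IsLevelConstant₁ (MonoidHom.id GQ) (c : GQ → M)) :
    IsLevelConstant₁ r (resCocycle r M c : H → Rep.res r M) := by
  obtain ⟨F, hF, h⟩ := hc
  refine ⟨F, hF, fun g s hs => ?_⟩
  rw [resCocycle_apply, resCocycle_apply, map_mul]
  exact h (r g) (r s) hs

variable (M)

/-- Restriction maps continuous classes to continuous classes. -/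
theorem resAlong_mem_continuousH1 {ξ : H1 M} (hξ : ξ ∈ continuousH1 (MonoidHom.id GQ) M) :
    resAlong r M ξ ∈ continuousH1 r (Rep.res r M) := by
  obtain ⟨c, hc, rfl⟩ := (mem_continuousH1_iff _ M ξ).1 hξ
  rw [resAlong_H1π]
  exact H1π_mem_continuousH1 r _ (isLevelConstant₁_resCocycle r hc)

/-- Restriction maps classes unramified outside `Sg` to continuous classes. -/
theorem resAlong_mem_continuousH1_of_S (Sg : Finset Nat.Primes) {ξ : H1 M}
    (hξ : ξ ∈ continuousH1S Sg M) : resAlong r M ξ ∈ continuousH1 r (Rep.res r M) :=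
  resAlong_mem_continuousH1 r M (continuousH1S_le_continuousH1 Sg M hξ)

/-- `resAt` maps `continuousH1S Sg M` into `locH1 M q`. -/
theorem resAt_mem_locH1 (Sg : Finset Nat.Primes) (q : Nat.Primes) {ξ : H1 M}
    (hξ : ξ ∈ continuousH1S Sg M) : resAt M q ξ ∈ locH1 M q :=
  resAlong_mem_continuousH1_of_S (primeLocalToGlobal q) M Sg hξ

/-- `resInf` maps `continuousH1S Sg M` into the continuous classes at the real place. -/
theorem resInf_mem_continuousH1 (Sg : Finset Nat.Primes) {ξ : H1 M}
    (hξ : ξ ∈ continuousH1S Sg M) :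
    resInf M ξ ∈ continuousH1 archimedeanLoc (Rep.res archimedeanLoc M) :=
  resAlong_mem_continuousH1_of_S archimedeanLoc M Sg hξ

/-- The class of `c` restricted to `q` is the class of `h ↦ c (r_q h)`. -/
theorem resAt_H1π (q : Nat.Primes) (c : cocycles₁ M) :
    resAt M q ((H1π M).hom c)
      = (H1π (locRep M q)).hom (resCocycle (primeLocalToGlobal q) M c) :=
  resAlong_H1π (primeLocalToGlobal q) M c

/-- The class of `c` restricted to the real place is the class of `h ↦ c (r_∞ h)`. -/
theorem resInf_H1π (c : cocycles₁ M) :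
    resInf M ((H1π M).hom c)
      = (H1π (Rep.res archimedeanLoc M)).hom (resCocycle archimedeanLoc M c) :=
  resAlong_H1π archimedeanLoc M c

end Fermat.Agent.S56.Dict.H85
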